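import Fermat.Agent.LocalForms.Restriction
import Mathlib.RingTheory.LaurentSeries
import Mathlib.RingTheory.PowerSeries.Trunc
import Mathlib.Order.Filter.Ultrafilter.Basic

/-!
# Lang's theorem for `k((t))`

Over a finite field `k`: zeros modulo every power of `t` come from `k(t)`, and finitely many
values per coefficient give a limit.
-/

set_option autoImplicit false

noncomputable section

open MvPolynomial

namespace Fermat.Agent.LocalForms

variable {k : Type*} [Field k] {σ ι : Type*}

/-- A ring homomorphism on values. -/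
theorem map_eval_hom {R S : Type*} [CommRing R] [CommRing S] (φ : R →+* S) (x : σ → R)
    (g : MvPolynomial σ R) : φ (eval x g) = eval (fun s => φ (x s)) (map φ g) := by
  rw [eval_map]
  simpa [eval₂_id, Function.comp_def] using eval₂_comp_left φ (RingHom.id R) x g

/-- Reduction modulo `t ^ M`. -/
def truncQuot (M : ℕ) :
    PowerSeries k →+* PowerSeries k ⧸ Ideal.span {(PowerSeries.X : PowerSeries k) ^ M} :=
  Ideal.Quotient.mk _

theorem truncQuot_eq_iff {M : ℕ} {a b : PowerSeries k} :
    truncQuot M a = truncQuot M b ↔ ∀ j < M, PowerSeries.coeff j a = PowerSeries.coeff j b := by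
  rw [truncQuot, Ideal.Quotient.mk_eq_mk_iff_sub_mem, Ideal.mem_span_singleton,
    PowerSeries.X_pow_dvd_iff]
  simp only [map_sub, sub_eq_zero]

theorem truncQuot_trunc (M : ℕ) (a : PowerSeries k) :
    truncQuot M ((PowerSeries.trunc M a : Polynomial k) : PowerSeries k) = truncQuot M a :=
  truncQuot_eq_iff.2 fun j hj => by
    rw [Polynomial.coeff_coe, PowerSeries.coeff_trunc, if_pos hj]

variable [Fintype σ] [Fintype ι]

/-- Forms over `k⟦t⟧` have primitive zeros modulo every power of `t`. -/
theorem exists_primitive_zero_mod [Finite k] (g : ι → MvPolynomial σ (PowerSeries k)) (d : ι → ℕ)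
    (hg : ∀ i, (g i).IsHomogeneous (d i) ∧ 0 < d i) (hd : ∑ i, d i ^ 2 < Fintype.card σ) (M : ℕ) :
    ∃ x : σ → PowerSeries k, (∃ s, PowerSeries.constantCoeff (x s) ≠ 0) ∧
      ∀ i, truncQuot M (eval x (g i)) = 0 := by
  classical
  set gM : ι → MvPolynomial σ (Polynomial k) := fun i =>
    ∑ e ∈ (g i).support, monomial e (PowerSeries.trunc M ((g i).coeff e))
  have hgM : ∀ i, (gM i).IsHomogeneous (d i) := fun i =>
    IsHomogeneous.sum _ _ _ fun e he =>
      isHomogeneous_monomial _ ((hg i).1.degree_eq_sum_deg_support he).symm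
  obtain ⟨x, hx, hx0⟩ := FA.Tsen.exists_polynomial_zero (FA.Tsen.isC_one k) gM (fun i => by
      rw [constantCoeff_eq]
      exact (hgM i).coeff_eq_zero (d := 0) (by rw [map_zero]; exact (hg i).2.ne))
    ((Finset.sum_le_sum fun i _ => Nat.pow_le_pow_left (hgM i).totalDegree_le _).trans_lt hd)
  -- divide by the largest power of `t`
  set S := Finset.univ.filter fun s => x s ≠ 0
  have hS : S.Nonempty := by
    obtain ⟨s, hs⟩ := Function.ne_iff.1 hx
    exact ⟨s, by simp [S, show x s ≠ 0 from hs]⟩
  set n := S.inf' hS fun s => (x s).natTrailingDegree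
  have hdvd : ∀ s, (Polynomial.X : Polynomial k) ^ n ∣ x s := fun s => by
    refine Polynomial.X_pow_dvd_iff.2 fun j hj => ?_
    by_cases hs : x s = 0
    · rw [hs, Polynomial.coeff_zero]
    · exact Polynomial.coeff_eq_zero_of_lt_natTrailingDegree
        (hj.trans_le (Finset.inf'_le _ (by simp [S, hs])))
  choose y hy using hdvd
  refine ⟨fun s => (y s : PowerSeries k), ?_, fun i => ?_⟩
  · obtain ⟨s, hs, hsn⟩ := S.exists_mem_eq_inf' hS fun s => (x s).natTrailingDegree
    refine ⟨s, ?_⟩
    rw [Polynomial.constantCoeff_coe]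
    have h1 := congrArg (fun p : Polynomial k => p.coeff n) (hy s)
    simp only [Polynomial.coeff_X_pow_mul' , le_refl, if_true, Nat.sub_self] at h1
    rw [← h1, show n = (x s).natTrailingDegree from hsn]
    exact Polynomial.trailingCoeff_nonzero_iff_nonzero.2 (by simpa [S] using hs)
  -- the value at `y`
  have hy0 : eval y (gM i) = 0 := by
    have h1 := hx0 i
    rw [show x = fun s => Polynomial.X ^ n * y s from funext hy, eval_eq] at h1
    rw [eval_eq]
    have h2 : ∀ e ∈ (gM i).support,
        (gM i).coeff e * ∏ s ∈ e.support, (Polynomial.X ^ n * y s) ^ e s =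
        (Polynomial.X ^ n) ^ d i * ((gM i).coeff e * ∏ s ∈ e.support, y s ^ e s) := fun e he => by
      simp only [mul_pow, Finset.prod_mul_distrib, Finset.prod_pow_eq_pow_sum]
      rw [show ∑ s ∈ e.support, e s = d i from ((hgM i).degree_eq_sum_deg_support he).symm]
      ring
    rw [Finset.sum_congr rfl h2, ← Finset.mul_sum] at h1
    exact (mul_eq_zero.1 h1).resolve_left (pow_ne_zero _ (pow_ne_zero _ Polynomial.X_ne_zero))
  have hmap : (gM i).map ((truncQuot M).comp Polynomial.coeToPowerSeries.ringHom) =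
      (g i).map (truncQuot M) := by
    conv_rhs => rw [as_sum (g i)]
    simp only [gM, map_sum, map_monomial, RingHom.comp_apply,
      Polynomial.coeToPowerSeries.ringHom_apply, truncQuot_trunc]
  have h3 := congrArg ((truncQuot M).comp Polynomial.coeToPowerSeries.ringHom) hy0
  rw [map_eval_hom, map_zero, hmap] at h3
  rw [map_eval_hom]
  exact h3

/-- **A limit**: forms over `k⟦t⟧` have a primitive zero. -/
theorem exists_primitive_zero [Finite k] (g : ι → MvPolynomial σ (PowerSeries k)) (d : ι → ℕ)
    (hg : ∀ i, (g i).IsHomogeneous (d i) ∧ 0 < d i) (hd : ∑ i, d i ^ 2 < Fintype.card σ) :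
    ∃ x : σ → PowerSeries k, x ≠ 0 ∧ ∀ i, eval x (g i) = 0 := by
  classical
  choose X hX hX0 using exists_primitive_zero_mod g d hg hd
  -- the coefficient shared by almost all approximations
  set U : Ultrafilter ℕ := Filter.hyperfilter ℕ
  have hpick : ∀ (s : σ) (j : ℕ), ∃ c : k, {M | PowerSeries.coeff j (X M s) = c} ∈ U :=
    fun s j => by
    have h : (⋃ c : k, {M | PowerSeries.coeff j (X M s) = c}) = Set.univ := by ext M; simp
    have h' := Ultrafilter.finite_biUnion_mem_iff (f := U) (is := (Set.univ : Set k))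
      (s := fun c => {M | PowerSeries.coeff j (X M s) = c}) Set.finite_univ
    simp only [Set.mem_univ, true_and, Set.iUnion_true, h] at h'
    exact h'.1 Filter.univ_mem
  choose c hc using hpick
  set x : σ → PowerSeries k := fun s => PowerSeries.mk (c s)
  have hclose : ∀ M₀, ∃ M, M₀ ≤ M ∧ ∀ s, ∀ j < M₀, PowerSeries.coeff j (X M s) = c s j := by
    intro M₀
    have h1 : {M | ∀ p ∈ (Finset.univ : Finset σ) ×ˢ Finset.range M₀,
        PowerSeries.coeff p.2 (X M p.1) = c p.1 p.2} ∈ U := by
      rw [show {M | ∀ p ∈ (Finset.univ : Finset σ) ×ˢ Finset.range M₀,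
          PowerSeries.coeff p.2 (X M p.1) = c p.1 p.2} =
          ⋂ p ∈ (Finset.univ : Finset σ) ×ˢ Finset.range M₀,
            {M | PowerSeries.coeff p.2 (X M p.1) = c p.1 p.2} by ext M; simp]
      exact (Filter.biInter_finset_mem _).2 fun p _ => hc p.1 p.2
    have h2 : {M | M₀ ≤ M} ∈ U :=
      Filter.mem_hyperfilter_of_finite_compl ((Set.finite_lt_nat M₀).subset fun M hM => by
        simpa using hM)
    obtain ⟨M, hM1, hM2⟩ := Ultrafilter.nonempty_of_mem (Filter.inter_mem h1 h2)
    exact ⟨M, hM2, fun s j hj => hM1 (s, j) (by simp [hj])⟩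
  refine ⟨x, fun h => ?_, fun i => PowerSeries.ext fun j => ?_⟩
  · obtain ⟨M, -, hM⟩ := hclose 1
    obtain ⟨s, hs⟩ := hX M
    refine hs ?_
    rw [← PowerSeries.coeff_zero_eq_constantCoeff_apply, hM s 0 one_pos]
    simpa [x] using congrArg (PowerSeries.coeff 0) (congrFun h s)
  obtain ⟨M, hMle, hM⟩ := hclose (j + 1)
  have e : truncQuot (j + 1) (eval x (g i)) = truncQuot (j + 1) (eval (X M) (g i)) := by
    rw [map_eval_hom, map_eval_hom]
    congr 2
    funext s
    exact truncQuot_eq_iff.2 fun l hl => by rw [PowerSeries.coeff_mk, hM s l hl]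
  have h0 : truncQuot M (eval (X M) (g i)) = truncQuot M 0 := (hX0 M i).trans (map_zero _).symm
  rw [truncQuot_eq_iff.1 e j (Nat.lt_succ_self j), truncQuot_eq_iff.1 h0 j (by omega)]

/-- **Lang**: `k((t))` is `C_2` for forms, `k` finite. -/
theorem formsC_laurentSeries (k : Type*) [Field k] [Finite k] : FormsC 2 (LaurentSeries k) := by
  classical
  intro σ ι _ _ f d hf hd
  have step : ∀ i, ∃ g : MvPolynomial σ (PowerSeries k), g.IsHomogeneous (d i) ∧
      ∃ b : LaurentSeries k, b ≠ 0 ∧ map (algebraMap (PowerSeries k) (LaurentSeries k)) g =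
        C b * f i := fun i => by
    obtain ⟨b, hb⟩ := IsLocalization.exist_integer_multiples
      (Submonoid.powers (PowerSeries.X : PowerSeries k)) (f i).support fun e => (f i).coeff e
    choose a ha using hb
    refine ⟨∑ e ∈ (f i).support.attach, monomial e.1 (a e.1 e.2),
      IsHomogeneous.sum _ _ _ fun e _ =>
        isHomogeneous_monomial _ ((hf i).1.degree_eq_sum_deg_support e.2).symm,
      algebraMap _ _ (b : PowerSeries k), ?_, ?_⟩
    · rw [Ne, map_eq_zero_iff _ (IsFractionRing.injective (PowerSeries k) (LaurentSeries k))]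
      obtain ⟨m, hm⟩ := b.2
      exact hm ▸ pow_ne_zero m PowerSeries.X_ne_zero
    · conv_rhs => rw [as_sum (f i), Finset.mul_sum, ← Finset.sum_attach]
      rw [map_sum]
      refine Finset.sum_congr rfl fun e _ => ?_
      rw [map_monomial, C_mul_monomial, ha e.1 e.2, Algebra.smul_def]
  choose g hg b hb hgb using step
  obtain ⟨x, hx, hx0⟩ := exists_primitive_zero g d (fun i => ⟨hg i, (hf i).2⟩) hd
  have hinj := IsFractionRing.injective (PowerSeries k) (LaurentSeries k)
  refine ⟨fun s => algebraMap _ _ (x s),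
    fun h => hx (funext fun s => hinj ((congrFun h s).trans (map_zero _).symm)), fun i => ?_⟩
  have h := map_eval_hom (algebraMap (PowerSeries k) (LaurentSeries k)) x (g i)
  rw [hx0 i, map_zero, hgb i, map_mul, eval_C, eq_comm, mul_eq_zero] at h
  exact h.resolve_left (hb i)

end Fermat.Agent.LocalForms
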