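import Fermat.Agent.Tsen.Forms

/-!
# `C_i` for forms

The property of Lang restricted to homogeneous systems, and its restriction of scalars.
-/

set_option autoImplicit false

noncomputable section

open MvPolynomial

namespace Fermat.Agent.LocalForms

/-- Every system of forms with `∑ d_k ^ i` less than the number of variables has a nontrivial
zero. -/
def FormsC (i : ℕ) (F : Type*) [Field F] : Prop :=
  ∀ (σ ι : Type) [Fintype σ] [Fintype ι] (f : ι → MvPolynomial σ F) (d : ι → ℕ),
    (∀ k, (f k).IsHomogeneous (d k) ∧ 0 < d k) → ∑ k, d k ^ i < Fintype.card σ →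
      ∃ x : σ → F, x ≠ 0 ∧ ∀ k, eval x (f k) = 0

variable {F L : Type*} [Field F] [Field L] [Algebra F L] {i : ℕ}

/-- **Restriction of scalars.** -/
theorem FormsC.finite_extension [FiniteDimensional F L] (hF : FormsC i F) : FormsC i L := by
  classical
  intro σ ι _ _ f d hf hd
  set b := Module.finBasis F L
  set w : σ → MvPolynomial (σ × Fin (Module.finrank F L)) L := fun s => ∑ j, C (b j) * X (s, j)
  set G : ι → MvPolynomial (σ × Fin (Module.finrank F L)) L := fun k => aeval w (f k)
  have hG : ∀ k, (G k).IsHomogeneous (d k) := fun k =>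
    one_mul (d k) ▸ (hf k).1.aeval w fun _ =>
      IsHomogeneous.sum _ _ _ fun _ _ => isHomogeneous_C_mul_X _ _
  set g : ι × Fin (Module.finrank F L) → MvPolynomial (σ × Fin (Module.finrank F L)) F := fun p =>
    ∑ e ∈ (G p.1).support, monomial e (b.repr ((G p.1).coeff e) p.2)
  obtain ⟨y, hy, hy'⟩ := hF _ _ g (fun p => d p.1) (fun p =>
    ⟨IsHomogeneous.sum _ _ _ fun e he => isHomogeneous_monomial _
      ((hG p.1).degree_eq_sum_deg_support he).symm, (hf p.1).2⟩) (by
      rw [Fintype.sum_prod_type]
      simp only [Finset.sum_const, Finset.card_univ, Fintype.card_fin, smul_eq_mul,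
        Fintype.card_prod]
      rw [← Finset.mul_sum, mul_comm (Fintype.card σ)]
      exact Nat.mul_lt_mul_of_pos_left hd Module.finrank_pos)
  refine ⟨fun s => ∑ j, b j * algebraMap F L (y (s, j)), fun h => hy (funext fun ⟨s, j⟩ => ?_),
    fun k => ?_⟩
  · exact Fintype.linearIndependent_iff.1 b.linearIndependent (fun j => y (s, j)) (by
      simpa [Algebra.smul_def, mul_comm] using congrFun h s) j
  have hev : eval (fun p => algebraMap F L (y p)) (G k) =
      eval (fun s => ∑ j, b j * algebraMap F L (y (s, j))) (f k) :=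
    DFunLike.congr_fun (ringHom_ext
      (f := (eval fun p => algebraMap F L (y p)).comp (aeval w).toRingHom)
      (g := eval fun s => ∑ j, b j * algebraMap F L (y (s, j))) (fun a => by simp)
      fun s => by simp [w]) (f k)
  have hsum : G k = ∑ j, C (b j) * map (algebraMap F L) (g (k, j)) := by
    conv_lhs => rw [as_sum (G k)]
    simp only [g, map_sum, map_monomial, Finset.mul_sum, C_mul_monomial]
    rw [Finset.sum_comm]
    refine Finset.sum_congr rfl fun e _ => ?_
    rw [← map_sum]
    congr 1
    conv_lhs => rw [← b.sum_repr ((G k).coeff e)]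
    simp [Algebra.smul_def, mul_comm]
  rw [← hev, hsum, map_sum]
  refine Finset.sum_eq_zero fun j _ => ?_
  rw [map_mul, eval_map]
  refine mul_eq_zero_of_right _ ?_
  have h := eval₂_comp_left (algebraMap F L) (RingHom.id F) y (g (k, j))
  rw [RingHom.comp_id, eval₂_id, hy' (k, j), map_zero] at h
  exact h.symm

/-- Quadratic forms. -/
theorem FormsC.quadraticForm (hF : FormsC i F) {V : Type*} [AddCommGroup V] [Module F V]
    [FiniteDimensional F V] (hV : 2 ^ i < Module.finrank F V) (Q : QuadraticForm F V) :
    ∃ v : V, v ≠ 0 ∧ Q v = 0 := by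
  classical
  let b := Module.finBasis F V
  let B := Q.toBilin b
  obtain ⟨x, hx, hx'⟩ := hF (Fin (Module.finrank F V)) Unit
    (fun _ => ∑ j, ∑ k, C (B (b j) (b k)) * X j * X k) (fun _ => 2)
    (fun _ => ⟨IsHomogeneous.sum _ _ _ fun j _ => IsHomogeneous.sum _ _ _ fun k _ =>
      ((isHomogeneous_C _ _).mul (isHomogeneous_X F j)).mul (isHomogeneous_X F k), two_pos⟩)
    (by simpa using hV)
  refine ⟨∑ j, x j • b j, fun h => hx (funext fun j =>
    Fintype.linearIndependent_iff.1 b.linearIndependent x h j), ?_⟩
  rw [← QuadraticMap.toQuadraticMap_toBilin Q b, LinearMap.BilinMap.toQuadraticMap_apply]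
  simp only [map_sum, map_smul, LinearMap.sum_apply, LinearMap.smul_apply, smul_eq_mul,
    Finset.mul_sum]
  have hx' := hx' ()
  simp only [map_sum, map_mul, eval_C, eval_X] at hx'
  rw [Finset.sum_comm] at hx'
  refine Eq.trans (Finset.sum_congr rfl fun j _ => Finset.sum_congr rfl fun k _ => ?_) hx'
  ring

end Fermat.Agent.LocalForms
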