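import Fermat.Agent.LocalForms.Restriction
import Mathlib.NumberTheory.Padics.RingHoms

/-!
# Terjanian's quartic

A quartic form in eighteen variables over `ℚ_[2]` whose only zero is trivial.
-/

set_option autoImplicit false

noncomputable section

open MvPolynomial

namespace Fermat.Agent.LocalForms

variable {R S : Type*} [CommRing R] [CommRing S]

/-- Terjanian's ternary quartic. -/
def quarticTerm (x y z : R) : R :=
  x ^ 4 + y ^ 4 + z ^ 4 - (x ^ 2 * y ^ 2 + y ^ 2 * z ^ 2 + z ^ 2 * x ^ 2) - x * y * z * (x + y + z)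

/-- The sum over three disjoint triples. -/
def nineTerm (x : Fin 3 → Fin 3 → R) : R :=
  ∑ i, quarticTerm (x i 0) (x i 1) (x i 2)

/-- The form in eighteen variables. -/
def terjanianTerm (x : Fin 2 × Fin 3 × Fin 3 → R) : R :=
  nineTerm (fun i j => x (0, i, j)) + 4 * nineTerm fun i j => x (1, i, j)

theorem map_quarticTerm (φ : R →+* S) (x y z : R) :
    φ (quarticTerm x y z) = quarticTerm (φ x) (φ y) (φ z) := by
  simp [quarticTerm]

theorem map_nineTerm (φ : R →+* S) (x : Fin 3 → Fin 3 → R) :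
    φ (nineTerm x) = nineTerm fun i j => φ (x i j) := by
  simp [nineTerm, map_quarticTerm]

theorem map_terjanianTerm (φ : R →+* S) (x : Fin 2 × Fin 3 × Fin 3 → R) :
    φ (terjanianTerm x) = terjanianTerm fun p => φ (x p) := by
  simp [terjanianTerm, map_nineTerm, map_ofNat]

theorem quarticTerm_smul (c x y z : R) :
    quarticTerm (c * x) (c * y) (c * z) = c ^ 4 * quarticTerm x y z := by
  unfold quarticTerm; ring

theorem nineTerm_smul (c : R) (x : Fin 3 → Fin 3 → R) :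
    nineTerm (fun i j => c * x i j) = c ^ 4 * nineTerm x := by
  simp [nineTerm, quarticTerm_smul, Finset.mul_sum]

theorem terjanianTerm_smul (c : R) (x : Fin 2 × Fin 3 × Fin 3 → R) :
    terjanianTerm (fun p => c * x p) = c ^ 4 * terjanianTerm x := by
  simp only [terjanianTerm, nineTerm_smul]; ring

theorem quarticTerm_mod_four : ∀ x y z : ZMod 4,
    quarticTerm x y z = if 2 * x = 0 ∧ 2 * y = 0 ∧ 2 * z = 0 then 0 else 1 := by
  unfold quarticTerm; decide

theorem nineTerm_mod_four {x : Fin 3 → Fin 3 → ZMod 4} (h : nineTerm x = 0) :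
    ∀ i j, 2 * x i j = 0 := by
  have h3 : ∀ a b c : Bool,
      (if a then 0 else (1 : ZMod 4)) + (if b then 0 else 1) + (if c then 0 else 1) = 0 →
        a = true ∧ b = true ∧ c = true := by decide
  have e := h
  rw [nineTerm, Fin.sum_univ_three, quarticTerm_mod_four, quarticTerm_mod_four,
    quarticTerm_mod_four] at e
  obtain ⟨h0, h1, h2⟩ := h3 (decide (2 * x 0 0 = 0 ∧ 2 * x 0 1 = 0 ∧ 2 * x 0 2 = 0))
    (decide (2 * x 1 0 = 0 ∧ 2 * x 1 1 = 0 ∧ 2 * x 1 2 = 0))
    (decide (2 * x 2 0 = 0 ∧ 2 * x 2 1 = 0 ∧ 2 * x 2 2 = 0)) (by simpa using e)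
  simp only [decide_eq_true_eq] at h0 h1 h2
  intro i j
  fin_cases i <;> fin_cases j <;> simp_all

theorem two_dvd_of_mod_four {z : ℤ_[2]} (h : 2 * PadicInt.toZModPow 2 z = 0) : (2 : ℤ_[2]) ∣ z := by
  have h' : PadicInt.toZModPow 2 (2 * z) = 0 := by rw [map_mul, map_ofNat]; exact h
  rw [← RingHom.mem_ker, PadicInt.ker_toZModPow, Ideal.mem_span_singleton] at h'
  obtain ⟨w, hw⟩ := h'
  refine ⟨w, mul_left_cancel₀ (two_ne_zero (α := ℤ_[2])) (hw.trans ?_)⟩
  norm_num
  ring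

theorem two_dvd_of_nineTerm {x : Fin 3 → Fin 3 → ℤ_[2]}
    (h : (4 : ℤ_[2]) ∣ nineTerm x) (i j : Fin 3) : (2 : ℤ_[2]) ∣ x i j := by
  refine two_dvd_of_mod_four
    (nineTerm_mod_four (x := fun i j => PadicInt.toZModPow 2 (x i j)) ?_ i j)
  rw [← map_nineTerm]
  obtain ⟨w, hw⟩ := h
  rw [hw, map_mul, map_ofNat]
  exact mul_eq_zero_of_left (by decide) _

theorem two_dvd_of_terjanianTerm {x : Fin 2 × Fin 3 × Fin 3 → ℤ_[2]}
    (h : terjanianTerm x = 0) (p : Fin 2 × Fin 3 × Fin 3) : (2 : ℤ_[2]) ∣ x p := by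
  rw [terjanianTerm] at h
  have hA : ∀ i j, (2 : ℤ_[2]) ∣ x (0, i, j) := two_dvd_of_nineTerm
    ⟨-nineTerm fun i j => x (1, i, j), by linear_combination h⟩
  choose a ha using hA
  rw [show (fun i j => x (0, i, j)) = fun i j => 2 * a i j from funext₂ ha, nineTerm_smul] at h
  have h4 : (4 : ℤ_[2]) ≠ 0 := by norm_num
  have hB : ∀ i j, (2 : ℤ_[2]) ∣ x (1, i, j) := two_dvd_of_nineTerm
    ⟨-nineTerm a, mul_left_cancel₀ h4 (by linear_combination h)⟩
  obtain ⟨q, i, j⟩ := p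
  fin_cases q
  · exact ⟨a i j, ha i j⟩
  · exact hB i j

/-- **The only zero is trivial.** -/
theorem terjanianTerm_eq_zero {x : Fin 2 × Fin 3 × Fin 3 → ℚ_[2]}
    (h : terjanianTerm x = 0) : x = 0 := by
  by_contra hne
  obtain ⟨p₀, -, hmax⟩ := Finset.univ.exists_max_image (fun p => ‖x p‖) Finset.univ_nonempty
  have hp0 : x p₀ ≠ 0 := fun h0 => hne (funext fun p => norm_le_zero_iff.1
    ((hmax p (Finset.mem_univ p)).trans_eq (by rw [h0, norm_zero])))
  set y : Fin 2 × Fin 3 × Fin 3 → ℤ_[2] := fun p => ⟨(x p₀)⁻¹ * x p, by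
    rw [norm_mul, norm_inv, inv_mul_le_iff₀ (norm_pos_iff.2 hp0), mul_one]
    exact hmax p (Finset.mem_univ p)⟩ with hy
  have hy0 : terjanianTerm y = 0 := by
    apply Subtype.coe_injective
    show PadicInt.Coe.ringHom (terjanianTerm y) = PadicInt.Coe.ringHom 0
    rw [map_terjanianTerm, map_zero]
    show terjanianTerm (fun p => (x p₀)⁻¹ * x p) = 0
    rw [terjanianTerm_smul, h, mul_zero]
  obtain ⟨w, hw⟩ := two_dvd_of_terjanianTerm hy0 p₀
  have h1 : ‖y p₀‖ = 1 := by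
    rw [PadicInt.norm_def]
    show ‖(x p₀)⁻¹ * x p₀‖ = 1
    rw [inv_mul_cancel₀ hp0, norm_one]
  rw [hw, norm_mul] at h1
  have h2 : ‖(2 : ℤ_[2])‖ = 2⁻¹ := by
    exact_mod_cast (PadicInt.norm_p (p := 2))
  rw [h2] at h1
  have := PadicInt.norm_le_one w
  linarith

theorem isHomogeneous_quarticTerm {σ : Type*} (a b c : σ) :
    (quarticTerm (X a) (X b) (X c) : MvPolynomial σ R).IsHomogeneous 4 := by
  unfold quarticTerm
  exact ((((isHomogeneous_X_pow _ 4).add (isHomogeneous_X_pow _ 4)).add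
    (isHomogeneous_X_pow _ 4)).sub ((((isHomogeneous_X_pow _ 2).mul
      (isHomogeneous_X_pow _ 2)).add ((isHomogeneous_X_pow _ 2).mul
      (isHomogeneous_X_pow _ 2))).add ((isHomogeneous_X_pow _ 2).mul
      (isHomogeneous_X_pow _ 2)))).sub ((((isHomogeneous_X _ _).mul
      (isHomogeneous_X _ _)).mul (isHomogeneous_X _ _)).mul
      (((isHomogeneous_X _ _).add (isHomogeneous_X _ _)).add (isHomogeneous_X _ _)))

theorem isHomogeneous_terjanianTerm :
    (terjanianTerm X : MvPolynomial (Fin 2 × Fin 3 × Fin 3) R).IsHomogeneous 4 := by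
  unfold terjanianTerm nineTerm
  refine (IsHomogeneous.sum _ _ _ fun i _ => isHomogeneous_quarticTerm _ _ _).add ?_
  rw [← map_ofNat (C (σ := Fin 2 × Fin 3 × Fin 3) (R := R))]
  exact (IsHomogeneous.sum _ _ _ fun i _ => isHomogeneous_quarticTerm _ _ _).C_mul _

/-- **Terjanian**: `ℚ_[2]` is not `C_2`, not even for one form. -/
theorem not_formsC_two_padic : ¬ FormsC 2 ℚ_[2] := fun h => by
  obtain ⟨x, hx, hx0⟩ := h (Fin 2 × Fin 3 × Fin 3) Unit (fun _ => terjanianTerm X) (fun _ => 4)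
    (fun _ => ⟨isHomogeneous_terjanianTerm, by norm_num⟩) (by simp)
  have h1 := hx0 ()
  rw [map_terjanianTerm] at h1
  simp only [eval_X] at h1
  exact hx (terjanianTerm_eq_zero h1)

end Fermat.Agent.LocalForms
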